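/-
S55 engine E1, block ALG — helper114.
Abstract core of the norm-kill lemma ALG4 (pure additive-group form, Mathlib only).

`G` finite group, `H ≤ G`, `0 → R → P → N → 0` an exact sequence of `G`-modules (only the actions
on `R`, `P` are used), `p N = 0`, `H` acts trivially on `N`, `C` a `G`-module with
`N_H(C) ⊆ p • C^H`.  Then for every ADDITIVE `ψ : R → C` the norm `N_G ψ = ∑_g g ψ g⁻¹`
extends to an additive `G`-equivariant map `P → C`.
-/
import Mathlib
import Fermat.Agent.S55.E1.H114.Extend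

set_option autoImplicit false

namespace Fermat.Agent.S55.E1.H114

section actions

/-- An additive endomorphism as an additive homomorphism. -/
def endHom {C : Type*} [AddCommGroup C] (f : AddMonoid.End C) : C →+ C := f

@[simp] lemma endHom_apply {C : Type*} [AddCommGroup C] (f : AddMonoid.End C) (c : C) :
    endHom f c = f c := rfl

variable {G : Type*} [Group G] {C : Type*} [AddCommGroup C] (aC : G →* AddMonoid.End C)

lemma act_mul (g h : G) (c : C) : aC (g * h) c = aC g (aC h c) := by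
  rw [map_mul]; rfl

lemma act_one (c : C) : aC 1 c = c := by
  rw [map_one]; rfl

lemma act_inv_act (g : G) (c : C) : aC g⁻¹ (aC g c) = c := by
  rw [← act_mul, inv_mul_cancel, act_one]

lemma act_act_inv (g : G) (c : C) : aC g (aC g⁻¹ c) = c := by
  rw [← act_mul, mul_inv_cancel, act_one]

end actions

section cosets

variable {G : Type*} [Group G] (H : Subgroup G) {C : Type*} [AddCommMonoid C]

/-- The bijection `(G ⧸ H) × H ≃ G`, `(q, t) ↦ q.out * t`. -/
noncomputable def cosetEquiv : (G ⧸ H) × H ≃ G where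
  toFun x := x.1.out * (x.2 : G)
  invFun g := ((g : G ⧸ H), ⟨(g : G ⧸ H).out⁻¹ * g, by
    rw [← QuotientGroup.eq, QuotientGroup.out_eq']⟩)
  left_inv := by
    rintro ⟨q, t⟩
    have h : ((q.out * (t : G) : G) : G ⧸ H) = q := by
      rw [QuotientGroup.mk_mul_of_mem _ t.2, QuotientGroup.out_eq']
    refine Prod.ext h (Subtype.ext ?_)
    simp only [h, inv_mul_cancel_left]
  right_inv g := by simp

lemma sum_eq_sum_quot_sum [Fintype G] [Fintype H] [Fintype (G ⧸ H)] (Φ : G → C) :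
    ∑ g : G, Φ g = ∑ q : G ⧸ H, ∑ t : H, Φ (q.out * (t : G)) := by
  rw [← Fintype.sum_prod_type' (f := fun (q : G ⧸ H) (t : H) => Φ (q.out * (t : G)))]
  exact (Fintype.sum_equiv (cosetEquiv H) _ _ (fun _ => rfl)).symm

lemma sum_quot_translate [Fintype (G ⧸ H)] (F : G → C)
    (hF : ∀ g : G, ∀ h ∈ H, F (g * h) = F g) (τ : G) :
    ∑ q : G ⧸ H, F (τ * q.out) = ∑ q : G ⧸ H, F q.out := by
  refine Fintype.sum_equiv (MulAction.toPerm τ) _ _ (fun q => ?_)
  have hmem : (τ * q.out)⁻¹ * ((MulAction.toPerm τ q : G ⧸ H)).out ∈ H := by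
    rw [← QuotientGroup.eq, QuotientGroup.out_eq']
    simp only [MulAction.toPerm_apply]
    conv_rhs => rw [← QuotientGroup.out_eq' q]
    rfl
  have := hF (τ * q.out) _ hmem
  rw [mul_inv_cancel_left] at this
  exact this.symm

end cosets

section lift

variable {R P Q : Type*} [AddCommGroup R] [AddCommGroup P] [AddCommGroup Q]

/-- Lift of an additive map with values in `range ι` through the injection `ι`. -/
noncomputable def liftKer (ι : R →+ P) (hι : Function.Injective ι) (φ : Q →+ P)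
    (hφ : ∀ q, φ q ∈ ι.range) : Q →+ R :=
  (AddMonoidHom.ofInjective hι).symm.toAddMonoidHom.comp (φ.codRestrict ι.range hφ)

lemma ι_liftKer (ι : R →+ P) (hι : Function.Injective ι) (φ : Q →+ P)
    (hφ : ∀ q, φ q ∈ ι.range) (q : Q) : ι (liftKer ι hι φ hφ q) = φ q := by
  simp only [liftKer, AddMonoidHom.coe_comp, AddEquiv.coe_toAddMonoidHom, Function.comp_apply]
  exact AddMonoidHom.apply_ofInjective_symm hι _

end lift

section core

variable {G : Type*} [Group G] [Fintype G] (H : Subgroup G) [Fintype H]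
variable {R P C N : Type*} [AddCommGroup R] [AddCommGroup P] [AddCommGroup C] [AddCommGroup N]
variable (aR : G →* AddMonoid.End R) (aP : G →* AddMonoid.End P) (aC : G →* AddMonoid.End C)

omit [Fintype G] in
/-- Step 1 of norm-kill: the `H`-norm `N_H ψ` of an additive map `ψ : R → C` extends to an
additive `H`-equivariant map `P → C`. -/
theorem exists_H_extension (p : ℕ) (hp : p.Prime) (ι : R →+ P) (ε : P →+ N)
    (hι : Function.Injective ι) (hε : Function.Surjective ε)
    (hex : ∀ x : P, ε x = 0 → ∃ r, ι r = x) (hιε : ∀ r, ε (ι r) = 0)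
    (hιeq : ∀ g r, ι (aR g r) = aP g (ι r))
    (hεH : ∀ h ∈ H, ∀ x, ε (aP h x) = ε x)
    (hN : ∀ n : N, p • n = 0)
    (hnorm : ∀ c : C, ∃ c₀ : C, (∀ h ∈ H, aC h c₀ = c₀) ∧ ∑ h : H, aC (h : G) c = p • c₀)
    (ψ : R →+ C) :
    ∃ k : P →+ C, (∀ h ∈ H, ∀ x, k (aP h x) = aC h (k x)) ∧
      ∀ r, k (ι r) = ∑ t : H, aC (t : G) (ψ (aR (t : G)⁻¹ r)) := by
  classical
  have hrange : ∀ x, x ∈ ι.range ↔ ε x = 0 := fun x =>
    ⟨by rintro ⟨r, rfl⟩; exact hιε r, fun hx => hex x hx⟩
  have hw_mem : ∀ (t : H) (x : P),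
      (endHom (aP (t : G)⁻¹) - AddMonoidHom.id P) x ∈ ι.range := by
    intro t x
    rw [hrange, AddMonoidHom.sub_apply, map_sub, AddMonoidHom.id_apply, endHom_apply,
      hεH _ (H.inv_mem t.2), sub_self]
  let w : H → P →+ R := fun t => liftKer ι hι _ (hw_mem t)
  have hw : ∀ (t : H) (x : P), ι (w t x) = aP (t : G)⁻¹ x - x := fun t x =>
    ι_liftKer ι hι _ (hw_mem t) x
  let a : P →+ C := ∑ t : H, (endHom (aC (t : G))).comp (ψ.comp (w t))
  have ha : ∀ x, a x = ∑ t : H, aC (t : G) (ψ (w t x)) := by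
    intro x
    simp only [a, AddMonoidHom.finsetSum_apply, AddMonoidHom.comp_apply, endHom_apply]
  -- the subgroup of `H`-invariants
  let D : AddSubgroup C :=
    { carrier := {c | ∀ h ∈ H, aC h c = c}
      add_mem' := fun {x y} hx hy h hh => by rw [map_add, hx h hh, hy h hh]
      zero_mem' := fun h _ => map_zero _
      neg_mem' := fun {x} hx h hh => by rw [map_neg, hx h hh] }
  have hnormD : ∀ c : C, ∑ t : H, aC (t : G) c ∈ D := by
    intro c h hh
    rw [map_sum]
    refine Fintype.sum_equiv (Equiv.mulLeft (⟨h, hh⟩ : H)) _ _ (fun t => ?_)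
    simp only [Equiv.coe_mulLeft, Subgroup.coe_mul, act_mul]
  let NH : R →+ C := ∑ t : H, (endHom (aC (t : G))).comp ψ
  have hNH : ∀ r, NH r = ∑ t : H, aC (t : G) (ψ r) := by
    intro r
    simp only [NH, AddMonoidHom.finsetSum_apply, AddMonoidHom.comp_apply, endHom_apply]
  let g₀ : R →+ D := NH.codRestrict D (fun r => by rw [hNH]; exact hnormD (ψ r))
  have hg₀ : ∀ r, ((g₀ r : D) : C) = ∑ t : H, aC (t : G) (ψ r) := fun r => hNH r
  have hdiv : ∀ r, ∃ d : D, p • d = g₀ r := by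
    intro r
    obtain ⟨c₀, hc₀, hc⟩ := hnorm (ψ r)
    refine ⟨⟨c₀, hc₀⟩, Subtype.ext ?_⟩
    rw [hg₀, hc]
    rfl
  obtain ⟨c, hc⟩ := exists_extension_of_pTorsion_quotient p hp ι ε hι hε hex hιε hN g₀ hdiv
  refine ⟨a + D.subtype.comp c, ?_, ?_⟩
  · intro h hh x
    let h' : H := ⟨h, hh⟩
    set v : R := w h'⁻¹ x with hv
    have hιv : ι v = aP h x - x := by
      rw [hv, hw]
      simp [h']
    have hx' : aP h x = x + ι v := by rw [hιv]; abel
    have hwt : ∀ t : H, w t (aP h x) = w (h'⁻¹ * t) x - v := by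
      intro t
      apply hι
      rw [map_sub, hw, hw, hιv]
      simp only [Subgroup.coe_mul, Subgroup.coe_inv, mul_inv_rev, inv_inv, act_mul, h']
      abel
    have h1 : a (aP h x) = aC h (a x) - ∑ t : H, aC (t : G) (ψ v) := by
      rw [ha, ha, map_sum, ← Finset.sum_sub_distrib]
      have : ∀ t : H, aC (t : G) (ψ (w t (aP h x))) =
          aC (t : G) (ψ (w (h'⁻¹ * t) x)) - aC (t : G) (ψ v) := by
        intro t
        rw [hwt, map_sub, map_sub]
      simp only [this, Finset.sum_sub_distrib]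
      congr 1
      refine (Fintype.sum_equiv (Equiv.mulLeft h') _ _ (fun s => ?_)).symm
      simp only [Equiv.coe_mulLeft, Subgroup.coe_mul, act_mul, inv_mul_cancel_left, h']
    have h2 : ((c (aP h x) : D) : C) = (c x : C) + ∑ t : H, aC (t : G) (ψ v) := by
      rw [hx', map_add, hc, AddSubgroup.coe_add, hg₀]
    have h3 : aC h ((c x : D) : C) = (c x : C) := (c x).2 h hh
    simp only [AddMonoidHom.add_apply, AddMonoidHom.comp_apply, AddSubgroup.coe_subtype, map_add]
    rw [h1, h2, h3]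
    abel
  · intro r
    have hwr : ∀ t : H, w t (ι r) = aR (t : G)⁻¹ r - r := by
      intro t
      apply hι
      rw [hw, map_sub, hιeq]
    simp only [AddMonoidHom.add_apply, AddMonoidHom.comp_apply, AddSubgroup.coe_subtype]
    rw [ha, hc, hg₀]
    simp only [hwr, map_sub, Finset.sum_sub_distrib]
    abel

/-- Step 2 of norm-kill: an additive `H`-equivariant map `k : P → C` gives the additive
`G`-equivariant map `N_{G/H} k = ∑_{σ ∈ G/H} σ k σ⁻¹`, whose restriction along an equivariant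
`ι : R → P` is the `G/H`-norm of the restriction of `k`. -/
theorem exists_G_of_H (ι : R →+ P) (hιeq : ∀ g r, ι (aR g r) = aP g (ι r))
    (k : P →+ C) (hk : ∀ h ∈ H, ∀ x, k (aP h x) = aC h (k x))
    (ψ : R →+ C) (hkψ : ∀ r, k (ι r) = ∑ t : H, aC (t : G) (ψ (aR (t : G)⁻¹ r))) :
    ∃ K : P →+ C, (∀ g x, K (aP g x) = aC g (K x)) ∧
      ∀ r, K (ι r) = ∑ g : G, aC g (ψ (aR g⁻¹ r)) := by
  classical
  let _ : Fintype (G ⧸ H) := Fintype.ofFinite _
  let K : P →+ C := ∑ q : G ⧸ H, (endHom (aC q.out)).comp (k.comp (endHom (aP q.out⁻¹)))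
  have hK : ∀ x, K x = ∑ q : G ⧸ H, aC q.out (k (aP q.out⁻¹ x)) := by
    intro x
    simp only [K, AddMonoidHom.finsetSum_apply, AddMonoidHom.comp_apply, endHom_apply]
  -- right `H`-invariance of `g ↦ g k g⁻¹`
  have hinv : ∀ (x : P) (g : G), ∀ h ∈ H,
      aC (g * h) (k (aP (g * h)⁻¹ x)) = aC g (k (aP g⁻¹ x)) := by
    intro x g h hh
    rw [mul_inv_rev, act_mul, act_mul, hk _ (H.inv_mem hh), act_act_inv]
  refine ⟨K, ?_, ?_⟩
  · intro g x
    rw [hK, hK, map_sum]
    have h1 : ∀ q : G ⧸ H, aC q.out (k (aP q.out⁻¹ (aP g x))) =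
        aC g (aC (g⁻¹ * q.out) (k (aP (g⁻¹ * q.out)⁻¹ x))) := by
      intro q
      rw [← act_mul, ← act_mul, mul_inv_rev, inv_inv, mul_inv_cancel_left]
    simp only [h1]
    rw [← map_sum, ← map_sum]
    congr 1
    exact sum_quot_translate H (fun g' => aC g' (k (aP g'⁻¹ x))) (hinv x) g⁻¹
  · intro r
    rw [hK, sum_eq_sum_quot_sum H]
    refine Finset.sum_congr rfl (fun q _ => ?_)
    rw [← hιeq, hkψ, map_sum]
    refine Finset.sum_congr rfl (fun t _ => ?_)
    rw [act_mul, mul_inv_rev, act_mul]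

/-- **Norm-kill, abstract form.**  `0 → R → P → N → 0` exact, `p N = 0`, `H ≤ G` acting trivially
on `N` (through `ε`), `N_H(C) ⊆ p • C^H`.  Then for every additive `ψ : R → C` the norm
`N_G ψ = ∑_g g ψ g⁻¹` extends to an additive `G`-equivariant map `P → C`. -/
theorem normKill_core (p : ℕ) (hp : p.Prime) (ι : R →+ P) (ε : P →+ N)
    (hι : Function.Injective ι) (hε : Function.Surjective ε)
    (hex : ∀ x : P, ε x = 0 → ∃ r, ι r = x) (hιε : ∀ r, ε (ι r) = 0)
    (hιeq : ∀ g r, ι (aR g r) = aP g (ι r))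
    (hεH : ∀ h ∈ H, ∀ x, ε (aP h x) = ε x)
    (hN : ∀ n : N, p • n = 0)
    (hnorm : ∀ c : C, ∃ c₀ : C, (∀ h ∈ H, aC h c₀ = c₀) ∧ ∑ h : H, aC (h : G) c = p • c₀)
    (ψ : R →+ C) :
    ∃ K : P →+ C, (∀ g x, K (aP g x) = aC g (K x)) ∧
      ∀ r, K (ι r) = ∑ g : G, aC g (ψ (aR g⁻¹ r)) := by
  obtain ⟨k, hk, hkψ⟩ := exists_H_extension H aR aP aC p hp ι ε hι hε hex hιε hιeq hεH hN hnorm ψ
  exact exists_G_of_H H aR aP aC ι hιeq k hk ψ hkψ

end core

end Fermat.Agent.S55.E1.H114
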