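/-
S55 engine E1, block ALG — helper114.
ALG4 (norm-kill) in the exact frozen form `Fermat.Agent.S55.E1.ALG4Spec`.
-/
import Fermat.Agent.S55.E1.SpecAlg
import Fermat.Agent.S55.E1.H114.NormKill

set_option autoImplicit false

open CategoryTheory CategoryTheory.Limits

namespace Fermat.Agent.S55.E1.H114

noncomputable section

section generic

variable {k G : Type} [CommRing k] [Group G]

/-- Concrete exactness in the middle of a short exact sequence of representations (generic
coefficient ring, to avoid the `ℤ`-module diamond). -/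
theorem rep_exact_apply {X : ShortComplex (Rep.{0} k G)} (hX : X.ShortExact)
    (x : X.X₂) (hx : X.g.hom x = 0) : ∃ y : X.X₁, X.f.hom y = x := by
  have := hX.exact
  rw [← ShortComplex.exact_map_iff_of_faithful X (forget₂ (Rep.{0} k G) (ModuleCat.{0} k)),
    ShortComplex.moduleCat_exact_iff] at this
  exact this x hx

/-- The action of `G` on a representation, as a monoid hom into additive endomorphisms. -/
def repAct (A : Rep.{0} k G) : G →* AddMonoid.End A.V where
  toFun g := (A.ρ g).toAddMonoidHom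
  map_one' := by
    ext x
    rw [map_one]
    rfl
  map_mul' g h := by
    ext x
    rw [map_mul]
    rfl

@[simp] lemma repAct_apply (A : Rep.{0} k G) (g : G) (x : A.V) : repAct A g x = A.ρ g x := rfl

/-- The underlying additive map of a morphism of representations. -/
def homAdd {A B : Rep.{0} k G} (f : A ⟶ B) : A.V →+ B.V := f.hom.toLinearMap.toAddMonoidHom

@[simp] lemma homAdd_apply {A B : Rep.{0} k G} (f : A ⟶ B) (x : A.V) : homAdd f x = f.hom x := rfl

/-- A linear `G`-equivariant map between representations is a morphism. -/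
def homOfLin {A B : Rep.{0} k G} (f : A.V →ₗ[k] B.V) (hf : ∀ g x, f (A.ρ g x) = B.ρ g (f x)) :
    A ⟶ B :=
  ConcreteCategory.ofHom (C := Rep.{0} k G) (f.intertwiningMap_of_isIntertwiningMap A.ρ B.ρ hf)

lemma homOfLin_hom_apply {A B : Rep.{0} k G} (f : A.V →ₗ[k] B.V)
    (hf : ∀ g x, f (A.ρ g x) = B.ρ g (f x)) (x : A.V) : (homOfLin f hf).hom x = f x := rfl

end generic

variable {G : Type} [Group G]

/-- The `ℤ`-scalar diamond: the action of a `Module ℤ M` instance is the `zsmul` of `M`. -/
theorem hsmul_eq_zsmul {M : Type*} [AddCommGroup M] (inst : Module ℤ M) (n : ℤ) (x : M) :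
    (@HSMul.hSMul ℤ M M (@instHSMul ℤ M inst.toSMul) n x) = n • x :=
  int_smul_eq_zsmul inst n x

/-- An additive map between representations over `ℤ` is `ℤ`-linear. -/
def linOfAdd {A B : Rep.{0} ℤ G} (K : A.V →+ B.V) :
    @LinearMap ℤ ℤ _ _ (RingHom.id ℤ) A.V B.V _ _ A.hV2 B.hV2 :=
  @LinearMap.mk ℤ ℤ _ _ (RingHom.id ℤ) A.V B.V _ _ A.hV2 B.hV2
    { toFun := K, map_add' := K.map_add }
    (fun z x => by
      simp only [RingHom.id_apply]
      show K (@HSMul.hSMul ℤ A.V A.V (@instHSMul ℤ A.V A.hV2.toSMul) z x) =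
        @HSMul.hSMul ℤ B.V B.V (@instHSMul ℤ B.V B.hV2.toSMul) z (K x)
      rw [hsmul_eq_zsmul A.hV2, hsmul_eq_zsmul B.hV2, map_zsmul])

/-- An additive `G`-equivariant map between representations over `ℤ` is a morphism. -/
def homOfAdd {A B : Rep.{0} ℤ G} (K : A.V →+ B.V) (hK : ∀ g x, K (A.ρ g x) = B.ρ g (K x)) :
    A ⟶ B :=
  homOfLin (linOfAdd K) hK

lemma homOfAdd_hom_apply {A B : Rep.{0} ℤ G} (K : A.V →+ B.V)
    (hK : ∀ g x, K (A.ρ g x) = B.ρ g (K x)) (x : A.V) : (homOfAdd K hK).hom x = K x := rfl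

/-- Concrete exactness of the standard presentation at `P`. -/
lemma stdSC_exact_apply (N : Rep.{0} ℤ G) (x : (stdP N).V) (hx : (stdε N).hom x = 0) :
    ∃ r : (stdR N).V, (stdι N).hom r = x :=
  rep_exact_apply (stdSC_shortExact N) x hx

lemma stdι_injective (N : Rep.{0} ℤ G) : Function.Injective (stdι N).hom :=
  (Rep.mono_iff_injective _).1 (stdι_mono N)

lemma stdε_stdι (N : Rep.{0} ℤ G) (r : (stdR N).V) : (stdε N).hom ((stdι N).hom r) = 0 := by
  have h : (kernel.ι (stdε N) ≫ stdε N).hom r = (0 : kernel (stdε N) ⟶ N).hom r := by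
    rw [kernel.condition]
  exact h

/-- **ALG4 (norm-kill)**, exact frozen form. -/
theorem alg4 : ALG4Spec := by
  intro p hp G _ _ H _ _ N C _ hN hHN hnorm ψ
  obtain ⟨K, hKeq, hKψ⟩ := normKill_core H (repAct (stdR N)) (repAct (stdP N)) (repAct C) p hp
    (homAdd (stdι N)) (homAdd (stdε N)) (stdι_injective N) (stdε_surjective N)
    (stdSC_exact_apply N) (stdε_stdι N)
    (fun g r => Rep.hom_comm_apply (stdι N) g r)
    (fun h hh x => by
      show (stdε N).hom ((stdP N).ρ h x) = (stdε N).hom x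
      rw [Rep.hom_comm_apply (stdε N) h x, hHN h hh])
    hN
    (fun c => hnorm c)
    ψ
  exact ⟨homOfAdd K hKeq, fun r => hKψ r⟩

end

end Fermat.Agent.S55.E1.H114
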