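/-
S55 engine E1, block ALG — helper114.
ALG5 (alpha^1) assembled from ALG1, ALG2, ALG4 in the exact frozen form
`Fermat.Agent.S55.E1.ALG5AssemblySpec`.
-/
import Fermat.Agent.S55.E1.SpecAlg

set_option autoImplicit false

open CategoryTheory CategoryTheory.Limits groupCohomology

namespace Fermat.Agent.S55.E1.H114

noncomputable section

variable {G : Type} [Group G]

/-- `H¹(G, N)` is killed by `p` when `N` is. -/
lemma nsmul_H1_eq_zero (p : ℕ) (N : Rep.{0} ℤ G) (hN : ∀ n : N.V, p • n = 0)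
    (x : groupCohomology N 1) : p • x = 0 := by
  induction x using groupCohomology.H1_induction_on with
  | h f =>
    rw [← map_nsmul]
    have : p • f = 0 := by
      ext g
      exact hN _
    rw [this, map_zero]

/-- (a) of ALG5: the pairing with a restricted map vanishes. -/
lemma pair_resBA_eq_zero (N C : Rep.{0} ℤ G) (h : homB N C) (x : groupCohomology N 1) :
    pair (resBA N C h) x = 0 := by
  have h0 : groupCohomology.δ (stdSC_shortExact N) 1 2 rfl ≫ T.coeffMap (stdι N) 2 = 0 :=
    (mapShortComplex₁ (stdSC_shortExact N) (i := 1) (j := 2) rfl).zero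
  have h1 : (T.coeffMap (stdι N) 2).hom (stdδ N x) = 0 := by
    have := congrArg (fun φ => φ.hom x) h0
    exact this
  show (T.coeffMap (stdι N ≫ h) 2).hom (stdδ N x) = 0
  rw [T.coeffMap, groupCohomology.map_id_comp]
  show (T.coeffMap h 2).hom ((T.coeffMap (stdι N) 2).hom (stdδ N x)) = 0
  rw [h1, map_zero]

/-- **ALG5 from ALG1, ALG2, ALG4**, exact frozen form. -/
theorem alg5Assembly : ALG5AssemblySpec := by
  intro h1 h2 h4 p hp G _ _ N C γ hNfin hN hC hT
  obtain ⟨hfree, hfin, hbij⟩ := h1 G N hNfin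
  obtain ⟨hsurj, hker⟩ := hT p hp G C γ hC (stdR N) hfree hfin
  refine ⟨fun h x => pair_resBA_eq_zero N C h x, ?_, ?_⟩
  · intro χ
    let e : groupCohomology N 1 ≃+ groupCohomology (stdR N) 2 :=
      AddEquiv.ofBijective (stdδ N).toAddMonoidHom hbij
    obtain ⟨f, hf⟩ := hsurj (χ.comp e.symm.toAddMonoidHom)
    refine ⟨f, fun x => ?_⟩
    have hx : IsPPrimary p (stdδ N x) :=
      ⟨1, by rw [pow_one, ← map_nsmul, nsmul_H1_eq_zero p N hN, map_zero]⟩
    have h3 := hf (stdδ N x) hx
    have h5 : e.symm (stdδ N x) = x := e.symm_apply_apply x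
    show (T.coeffMap f 2).hom (stdδ N x) = χ x
    rw [h3]
    show χ (e.symm (stdδ N x)) = χ x
    rw [h5]
  · intro H _ _ hHN hnorm f hf
    have hzero : ∀ y : groupCohomology (stdR N) 2, IsPPrimary p y →
        (T.coeffMap f 2).hom y = 0 := by
      intro y _
      obtain ⟨x, rfl⟩ := hbij.2 y
      exact hf x
    obtain ⟨m, ψ, hm, hψ⟩ := hker f hzero
    obtain ⟨k, hk⟩ := h4 p hp G H N C hNfin hN hHN hnorm ψ
    obtain ⟨k', hk'⟩ := h2 p G N C hN f
    have hk2 : stdι N ≫ k = m • f := by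
      apply Rep.hom_ext
      apply DFunLike.ext
      intro r
      show k.hom ((stdι N).hom r) = m • f.hom r
      rw [hk, hψ]
    obtain ⟨a, b, hab⟩ := Nat.isCoprime_iff_coprime.2 hm
    refine ⟨a • k + b • k', ?_⟩
    rw [Preadditive.comp_add, Preadditive.comp_zsmul, Preadditive.comp_zsmul, hk2, hk',
      ← natCast_zsmul f m, ← natCast_zsmul f p, smul_smul, smul_smul, ← add_smul, hab, one_smul]

end

end Fermat.Agent.S55.E1.H114
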