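/-
S55 engine E1, block ALG — helper114.
ALG5 (alpha^1) in the exact frozen form `Fermat.Agent.S55.E1.ALG5Spec`, from
ALG1, ALG2 (helper304, on main) and ALG4 (helper114).
-/
import Fermat.Agent.S55.E1.H304.Alg1
import Fermat.Agent.S55.E1.H304.Alg2
import Fermat.Agent.S55.E1.H114.Alg4
import Fermat.Agent.S55.E1.H114.Alg5

set_option autoImplicit false

namespace Fermat.Agent.S55.E1.H114

/-- **ALG5 (alpha^1)**, exact frozen form. -/
theorem alg5 : ALG5Spec :=
  alg5Assembly Fermat.Agent.S55.E1.H304.alg1 Fermat.Agent.S55.E1.H304.alg2 alg4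

end Fermat.Agent.S55.E1.H114
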