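/-
S55 engine E1, block ALG — helper114.
Additive extension lemma used by the norm-kill lemma ALG4.

`0 → R → P → N → 0` exact sequence of abelian groups with `p N = 0`; an additive map
`g₀ : R → D` whose values are all divisible by `p` in `D` extends to `P`.
-/
import Mathlib

set_option autoImplicit false

namespace Fermat.Agent.S55.E1.H114

open Finsupp

/-- Auxiliary form of the additive extension lemma, with the `ZMod p`-module structure on `N` as
an instance argument. -/
theorem exists_extension_aux
    {R P N D : Type*} [AddCommGroup R] [AddCommGroup P] [AddCommGroup N] [AddCommGroup D]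
    (p : ℕ) [Fact p.Prime] [Module (ZMod p) N] (ι : R →+ P) (ε : P →+ N)
    (hι : Function.Injective ι) (hε : Function.Surjective ε)
    (hex : ∀ x : P, ε x = 0 → ∃ r, ι r = x) (hιε : ∀ r, ε (ι r) = 0)
    (hN : ∀ n : N, p • n = 0)
    (g₀ : R →+ D) (hdiv : ∀ r : R, ∃ d : D, p • d = g₀ r) :
    ∃ c : P →+ D, ∀ r, c (ι r) = g₀ r := by
  classical
  let I := Module.Basis.ofVectorSpaceIndex (ZMod p) N
  let b : Module.Basis I (ZMod p) N := Module.Basis.ofVectorSpace (ZMod p) N
  choose x hx using fun i : I => hε (b i)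
  have hpx : ∀ i, ε (p • x i) = 0 := fun i => by rw [map_nsmul, hN]
  choose ρ hρ using fun i => hex _ (hpx i)
  choose d hd using fun i => hdiv (ρ i)
  -- the three "linear combination" maps
  let X : (I →₀ ℤ) →+ P := Finsupp.liftAddHom (fun i => zmultiplesHom P (x i))
  let Rm : (I →₀ ℤ) →+ R := Finsupp.liftAddHom (fun i => zmultiplesHom R (ρ i))
  let Dm : (I →₀ ℤ) →+ D := Finsupp.liftAddHom (fun i => zmultiplesHom D (d i))
  have hX : ∀ i (a : ℤ), X (Finsupp.single i a) = a • x i := fun i a => by
    simp [X]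
  have hRm : ∀ i (a : ℤ), Rm (Finsupp.single i a) = a • ρ i := fun i a => by
    simp [Rm]
  have hDm : ∀ i (a : ℤ), Dm (Finsupp.single i a) = a • d i := fun i a => by
    simp [Dm]
  -- `ι ∘ Rm = p • X`
  have h1 : ∀ m, ι (Rm m) = p • X m := by
    intro m
    have : ι.comp Rm = (p • X : (I →₀ ℤ) →+ P) := by
      refine Finsupp.addHom_ext fun i a => ?_
      simp only [AddMonoidHom.comp_apply, hRm, AddMonoidHom.smul_apply, hX, map_zsmul, hρ]
      rw [smul_comm]
    exact DFunLike.congr_fun this m
  -- `g₀ ∘ Rm = p • Dm`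
  have h2 : ∀ m, g₀ (Rm m) = p • Dm m := by
    intro m
    have : g₀.comp Rm = (p • Dm : (I →₀ ℤ) →+ D) := by
      refine Finsupp.addHom_ext fun i a => ?_
      simp only [AddMonoidHom.comp_apply, hRm, AddMonoidHom.smul_apply, hDm, map_zsmul, ← hd]
      rw [smul_comm]
    exact DFunLike.congr_fun this m
  -- `ε ∘ X` in terms of the basis
  let cast : (I →₀ ℤ) →+ (I →₀ ZMod p) := Finsupp.mapRange.addMonoidHom (Int.castAddHom (ZMod p))
  have h3 : ∀ m, ε (X m) = b.repr.symm (cast m) := by
    intro m
    have : ε.comp X = (b.repr.symm : (I →₀ ZMod p) →+ N).comp cast := by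
      refine Finsupp.addHom_ext fun i a => ?_
      simp only [AddMonoidHom.comp_apply, hX, map_zsmul, hx, cast]
      simp [Int.cast_smul_eq_zsmul]
    exact DFunLike.congr_fun this m
  let π : R × (I →₀ ℤ) →+ P := AddMonoidHom.coprod ι X
  let c' : R × (I →₀ ℤ) →+ D := AddMonoidHom.coprod g₀ Dm
  have hπ : Function.Surjective π := by
    intro y
    let m : I →₀ ℤ := (b.repr (ε y)).mapRange (fun c => (c.val : ℤ)) (by simp)
    have hm : cast m = b.repr (ε y) := by
      ext i
      simp [cast, m]
    have hy : ε (y - X m) = 0 := by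
      rw [map_sub, h3, hm, b.repr.symm_apply_apply, sub_self]
    obtain ⟨r, hr⟩ := hex _ hy
    exact ⟨(r, m), by simp [π, hr]⟩
  have hker : π.ker ≤ c'.ker := by
    rintro ⟨r, m⟩ hrm
    rw [AddMonoidHom.mem_ker] at hrm ⊢
    simp only [π, AddMonoidHom.coprod_apply] at hrm
    have hεm : ε (X m) = 0 := by
      have := congrArg ε hrm
      rw [map_add, map_zero] at this
      rwa [hιε, zero_add] at this
    have hcast : cast m = 0 := by
      rw [h3] at hεm
      exact (LinearEquiv.map_eq_zero_iff _).1 hεm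
    have hdvd : ∀ i, (p : ℤ) ∣ m i := by
      intro i
      have := DFunLike.congr_fun hcast i
      simp only [cast, Finsupp.mapRange.addMonoidHom_apply, Finsupp.mapRange_apply,
        Int.coe_castAddHom, Finsupp.coe_zero, Pi.zero_apply] at this
      exact (ZMod.intCast_zmod_eq_zero_iff_dvd _ _).1 this
    let m' : I →₀ ℤ := m.mapRange (fun a => a / (p : ℤ)) (by simp)
    have hm' : m = p • m' := by
      ext i
      simp only [m', Finsupp.smul_apply, Finsupp.mapRange_apply, nsmul_eq_mul]
      exact (Int.mul_ediv_cancel' (hdvd i)).symm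
    have hXm : X m = ι (Rm m') := by
      rw [h1, hm', map_nsmul]
    have hr : r = - Rm m' := by
      apply hι
      rw [map_neg, ← hXm]
      exact eq_neg_of_add_eq_zero_left hrm
    simp only [c', AddMonoidHom.coprod_apply]
    rw [hr, map_neg, h2]
    conv_lhs => rw [hm', map_nsmul]
    exact neg_add_cancel _
  refine ⟨AddMonoidHom.liftOfSurjective π hπ ⟨c', hker⟩, fun r => ?_⟩
  have := AddMonoidHom.liftOfRightInverse_comp_apply π (Function.surjInv hπ)
    (Function.rightInverse_surjInv hπ) ⟨c', hker⟩ (r, 0)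
  simpa [π, c'] using this

/-- **Additive extension lemma.**  Let `0 → R → P → N → 0` be an exact sequence of abelian groups
with `p N = 0`, `p` prime.  If every value of the additive map `g₀ : R → D` is divisible by `p`
in `D`, then `g₀` extends to an additive map `P → D`. -/
theorem exists_extension_of_pTorsion_quotient
    {R P N D : Type*} [AddCommGroup R] [AddCommGroup P] [AddCommGroup N] [AddCommGroup D]
    (p : ℕ) (hp : p.Prime) (ι : R →+ P) (ε : P →+ N)
    (hι : Function.Injective ι) (hε : Function.Surjective ε)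
    (hex : ∀ x : P, ε x = 0 → ∃ r, ι r = x) (hιε : ∀ r, ε (ι r) = 0)
    (hN : ∀ n : N, p • n = 0)
    (g₀ : R →+ D) (hdiv : ∀ r : R, ∃ d : D, p • d = g₀ r) :
    ∃ c : P →+ D, ∀ r, c (ι r) = g₀ r :=
  @exists_extension_aux R P N D _ _ _ _ p ⟨hp⟩ (AddCommGroup.zmodModule hN) ι ε hι hε hex hιε hN
    g₀ hdiv

end Fermat.Agent.S55.E1.H114
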